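/-
S56 (Taylor-Wiles primes), block (G1), leaf `Inv`.  See `Fermat/Agent/S56/GW/G1/Main.lean` for the plan:
  `0 → Hom_G(σ, F_p(1)) → Hom_G(σ, J) = ∏_v Hom_{D_v}(σ, F_p(1)) → Hom_G(σ, W) ≅ H²(G_S,σ)^* → Ш¹_S(σ^*(1)) → 0`.
-/
import Fermat.Agent.S56.GW.Sel
import Fermat.Agent.PT.Coh.Dict
import Fermat.Agent.PT.Duality.Defs

set_option autoImplicit false
set_option maxHeartbeats 400000
set_option linter.unusedSectionVars false

open CategoryTheory groupCohomology ExtCitation Module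

noncomputable section

namespace Fermat.Agent.S56.GW

open Fermat.Agent.PT

variable {p : ℕ} [Fact p.Prime] {S : Finset Nat.Primes}

variable {A B : Type} [AddCommGroup A] [Module (ZMod p) A] [AddCommGroup B] [Module (ZMod p) B]
  {ρ : Representation (ZMod p) GQ A} {σ : Representation (ZMod p) GQ B}
  {β : A →ₗ[ZMod p] B →ₗ[ZMod p] ZMod p}

/-- `A^V ≃ Hom_V(σ, F_p(1))`, `a ↦ β a`.  (`a` invariant: `β a (σ v b) = β (ρ v a) (σ v b) = χ(v) β a b`.
Conversely `ψ = β a` equivariant: `β (ρ v a) (σ v b) = χ(v) β a b = β a (σ v b)` for all `b`, `σ v` is onto, `β` injective.) -/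
theorem exists_invOf_equiv (hβ : IsPairingOn ⊤ ρ σ (cycRep p) β) (hβl : Function.Bijective β)
    (V : Subgroup GQ) : Nonempty (invOf V ρ ≃ₗ[ZMod p] EHomOn V σ (cycRep p)) := by
  have h1 : ∀ a ∈ invOf V ρ, β a ∈ EHomOn V σ (cycRep p) := by
    intro a ha v hv b
    have h := hβ v trivial a b
    rw [ha v hv] at h
    exact h
  have h2 : ∀ a, β a ∈ EHomOn V σ (cycRep p) → a ∈ invOf V ρ := by
    intro a ha v hv
    apply hβl.1
    refine LinearMap.ext fun b' => ?_
    have hb : σ v (σ v⁻¹ b') = b' := by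
      rw [← Module.End.mul_apply, ← map_mul, mul_inv_cancel, map_one, Module.End.one_apply]
    rw [← hb, hβ v trivial a (σ v⁻¹ b'), ha v hv]
  refine ⟨LinearEquiv.ofBijective (β.restrict h1) ⟨?_, ?_⟩⟩
  · intro a a' h
    apply Subtype.ext
    apply hβl.1
    exact congrArg Subtype.val h
  · rintro ⟨ψ, hψ⟩
    obtain ⟨a, rfl⟩ := hβl.2 ψ
    exact ⟨⟨a, h2 a hψ⟩, rfl⟩

/-- The evaluation pairing `σ^*(1) × σ → F_p(1)`. -/
theorem isPairingOn_dual (σ : Representation (ZMod p) GQ B) :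
    IsPairingOn ⊤ (σ.dual.twist (cycloChar p)) σ (cycRep p) LinearMap.id := by
  intro v _ a b
  have hb : σ v⁻¹ (σ v b) = b := by
    rw [← Module.End.mul_apply, ← map_mul, inv_mul_cancel, map_one, Module.End.one_apply]
  rw [LinearMap.id_apply, LinearMap.id_apply, Representation.twist_apply_apply, cycRep_apply,
    LinearMap.smul_apply, Representation.dual_apply, Module.Dual.transpose_apply,
    LinearMap.comp_apply, hb, smul_eq_mul]


end Fermat.Agent.S56.GW

end
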