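/-
S56 (Taylor-Wiles primes), block (G1), leaf `Hom`.  See `Fermat/Agent/S56/GW/G1/Main.lean` for the plan:
  `0 → Hom_G(σ, F_p(1)) → Hom_G(σ, J) = ∏_v Hom_{D_v}(σ, F_p(1)) → Hom_G(σ, W) ≅ H²(G_S,σ)^* → Ш¹_S(σ^*(1)) → 0`.
-/
import Fermat.Agent.S56.GW.Sel
import Fermat.Agent.PT.Duality.ThetaSurj
import Fermat.Agent.PT.Duality.Global

set_option autoImplicit false
set_option maxHeartbeats 400000
set_option linter.unusedSectionVars false

open CategoryTheory groupCohomology ExtCitation Module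

noncomputable section

namespace Fermat.Agent.S56.GW

open Fermat.Agent.PT

variable {p : ℕ} [Fact p.Prime] {S : Finset Nat.Primes}

section Hom

variable {B : Type} [AddCommGroup B] [Module (ZMod p) B] (σ : Representation (ZMod p) GQ B)

/-- `φ ↦ (ev_ℓ ∘ φ)_ℓ`. -/
def evJ (S : Finset Nat.Primes) : EHomOn ⊤ σ (JQ p S) →ₗ[ZMod p] (∀ ℓ : ↥S, EHomOn (Dl ℓ.1) σ (cycRep p)) :=
  LinearMap.pi fun ℓ => EHomOn.postcomp σ (Jev_mem (LS S) (DS S) (cycRep p) ℓ) ∘ₗ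
    Submodule.inclusion (fun _ h => EHomOn.mono le_top h)

/-- Frobenius reciprocity.  Surjective: `exists_EHomOn_Jrep`.  Injective: if `Jev ℓ ∘ φ = 0` for all `ℓ` then
`(φ m ℓ : GQ → ZMod p) x = (Jrep x (φ m) ℓ) 1 = (φ (σ x m) ℓ) 1 = 0` (`Jrep_apply_coe`, `φ.2 x trivial m`). -/
theorem evJ_bijective (hσ : ∃ U ∈ LS S, ∀ u ∈ U, σ u = 1) : Function.Bijective (evJ σ S) := by
  constructor
  · intro φ ψ hφ
    apply Subtype.ext
    apply LinearMap.ext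
    intro m
    funext ℓ
    apply Subtype.ext
    funext x
    have h1 : Jev (LS S) (DS S) (cycRep p) ℓ (φ.1 (σ x m)) =
        Jev (LS S) (DS S) (cycRep p) ℓ (ψ.1 (σ x m)) :=
      congrArg (fun f : EHomOn (Dl ℓ.1) σ (cycRep p) => f.1 (σ x m)) (congrFun hφ ℓ)
    rw [φ.2 x trivial m, ψ.2 x trivial m, Jev_apply, Jev_apply, Jrep_apply_coe, Jrep_apply_coe,
      one_mul] at h1
    exact h1
  · intro ψ
    obtain ⟨φ, hφ⟩ := exists_EHomOn_Jrep (L := LS S) (D := DS S) (c := cycRep p) hσ ψ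
    exact ⟨φ, funext fun ℓ => Subtype.ext (hφ ℓ)⟩

/-- `Hom_G(σ, F_p(1)) → Hom_G(σ, J)`. -/
def inclJ (hpS : pPrime p ∈ S) : EHomOn ⊤ σ (cycRep p) →ₗ[ZMod p] EHomOn ⊤ σ (JQ p S) :=
  EHomOn.postcomp σ (Jincl_mem (LS S) (DS S) (cycRep p) (isSmoothRep_cycRep hpS) ⊤)

/-- `Hom_G(σ, J) → Hom_G(σ, W)`. -/
def projW (hpS : pPrime p ∈ S) : EHomOn ⊤ σ (JQ p S) →ₗ[ZMod p] EHomOn ⊤ σ (WQ p hpS) :=
  EHomOn.postcomp σ (piQ p hpS).2

/-- `Jev ⟨p, hpS⟩ ∘ Jincl = id` (`Jev_Jincl`). -/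
theorem inclJ_injective (hpS : pPrime p ∈ S) : Function.Injective (inclJ σ hpS) := by
  intro φ ψ h
  apply Subtype.ext
  apply LinearMap.ext
  intro m
  have h1 : Jev (LS S) (DS S) (cycRep p) ⟨pPrime p, hpS⟩
      (Jincl (LS S) (DS S) (cycRep p) (isSmoothRep_cycRep hpS) (φ.1 m)) =
      Jev (LS S) (DS S) (cycRep p) ⟨pPrime p, hpS⟩
      (Jincl (LS S) (DS S) (cycRep p) (isSmoothRep_cycRep hpS) (ψ.1 m)) :=
    congrArg (fun f : EHomOn ⊤ σ (JQ p S) =>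
      Jev (LS S) (DS S) (cycRep p) ⟨pPrime p, hpS⟩ (f.1 m)) h
  rwa [Jev_Jincl, Jev_Jincl] at h1

/-- `π ∘ φ = 0` iff `φ` has values in `ker π = range Jincl` (`ker_Wpi`); then `φ = Jincl ∘ (Jev ⟨p,hpS⟩ ∘ φ)`
(`Jev_Jincl`) and `Jev ⟨p,hpS⟩ ∘ φ` is `G`-equivariant because `Jincl` is equivariant and injective. -/
theorem exact_inclJ_projW (hpS : pPrime p ∈ S) : Function.Exact (inclJ σ hpS) (projW σ hpS) := by
  intro φ
  constructor
  · intro h
    have hm : ∀ m, φ.1 m ∈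
        LinearMap.range (Jincl (LS S) (DS S) (cycRep p) (isSmoothRep_cycRep hpS)) := by
      intro m
      rw [← ker_Wpi, LinearMap.mem_ker]
      exact congrArg (fun f : EHomOn ⊤ σ (WQ p hpS) => f.1 m) h
    have hm' : ∀ m, Jincl (LS S) (DS S) (cycRep p) (isSmoothRep_cycRep hpS)
        (Jev (LS S) (DS S) (cycRep p) ⟨pPrime p, hpS⟩ (φ.1 m)) = φ.1 m := by
      intro m
      obtain ⟨a, ha⟩ := hm m
      rw [← ha, Jev_Jincl]
    have hinj : Function.Injective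
        (Jincl (LS S) (DS S) (cycRep p) (isSmoothRep_cycRep hpS)) := by
      intro a b hab
      have := congrArg (Jev (LS S) (DS S) (cycRep p) ⟨pPrime p, hpS⟩) hab
      rwa [Jev_Jincl, Jev_Jincl] at this
    refine ⟨⟨Jev (LS S) (DS S) (cycRep p) ⟨pPrime p, hpS⟩ ∘ₗ φ.1, ?_⟩, ?_⟩
    · rw [mem_EHomOn_top]
      intro g m
      apply hinj
      rw [LinearMap.comp_apply, LinearMap.comp_apply, hm',
        Jincl_mem (LS S) (DS S) (cycRep p) (isSmoothRep_cycRep hpS) ⊤ g trivial, hm',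
        φ.2 g trivial m]
    · apply Subtype.ext
      apply LinearMap.ext
      intro m
      exact hm' m
  · rintro ⟨ψ, rfl⟩
    apply Subtype.ext
    apply LinearMap.ext
    intro m
    show Wpi (LS S) (DS S) (cycRep p) (isSmoothRep_cycRep hpS)
      (Jincl (LS S) (DS S) (cycRep p) (isSmoothRep_cycRep hpS) (ψ.1 m)) = 0
    rw [← LinearMap.mem_ker, ker_Wpi]
    exact ⟨_, rfl⟩

end Hom


end Fermat.Agent.S56.GW

end
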