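/-
S56 (Taylor-Wiles primes), block (G1), leaf `LinAlg`.  See `Fermat/Agent/S56/GW/G1/Main.lean` for the plan:
  `0 → Hom_G(σ, F_p(1)) → Hom_G(σ, J) = ∏_v Hom_{D_v}(σ, F_p(1)) → Hom_G(σ, W) ≅ H²(G_S,σ)^* → Ш¹_S(σ^*(1)) → 0`.
-/
import Fermat.Agent.PT.Gal.Setup

set_option autoImplicit false
set_option maxHeartbeats 400000
set_option linter.unusedSectionVars false

open CategoryTheory groupCohomology ExtCitation Module

noncomputable section

namespace Fermat.Agent.S56.GW

open Fermat.Agent.PT

/-- A four term exact sequence `0 → A0 → A1 → A2 → A3 → 0` with `A1` finite dimensional.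
Proof: `A0` is finite (`Module.Finite.of_injective`).  `A2` finite `→` `A3` finite (`Module.Finite.of_surjective`).
`A3` finite `→` `A2` finite: `range f1 = ker f2` is finite (`Module.Finite.range`), `A2 ⧸ ker f2 ≃ A3`
(`LinearMap.quotKerEquivOfSurjective`), `Module.Finite.of_submodule_quotient` (or `Module.finite_of_finite_...`).
Dimensions: `LinearMap.finrank_range_add_finrank_ker` for `f1` and for `f2`; `ker f1 = range f0 ≃ A0`
(`LinearMap.exact_iff`, `LinearEquiv.ofInjective`), `ker f2 = range f1`, `range f2 = ⊤`. -/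
theorem finrank_four_term {K : Type*} [Field K] {A0 A1 A2 A3 : Type*}
    [AddCommGroup A0] [Module K A0] [AddCommGroup A1] [Module K A1]
    [AddCommGroup A2] [Module K A2] [AddCommGroup A3] [Module K A3]
    (f0 : A0 →ₗ[K] A1) (f1 : A1 →ₗ[K] A2) (f2 : A2 →ₗ[K] A3)
    (h0 : Function.Injective f0) (h01 : Function.Exact f0 f1) (h12 : Function.Exact f1 f2)
    (h2 : Function.Surjective f2) [Module.Finite K A1] :
    (Module.Finite K A2 ↔ Module.Finite K A3) ∧
      (Module.Finite K A3 → finrank K A2 + finrank K A0 = finrank K A1 + finrank K A3) := by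
  have hfin : Module.Finite K A3 → Module.Finite K A2 := by
    intro h3
    have hk : Module.Finite K (LinearMap.ker f2) := by
      rw [(LinearMap.exact_iff.mp h12)]
      exact Module.Finite.range f1
    have hq : Module.Finite K (A2 ⧸ LinearMap.ker f2) :=
      Module.Finite.equiv (f2.quotKerEquivOfSurjective h2).symm
    exact Module.Finite.of_submodule_quotient (LinearMap.ker f2)
  refine ⟨⟨fun h => Module.Finite.of_surjective f2 h2, hfin⟩, fun h3 => ?_⟩
  have hA2 := hfin h3
  have e1 := LinearMap.finrank_range_add_finrank_ker f1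
  have e2 := LinearMap.finrank_range_add_finrank_ker f2
  rw [LinearMap.exact_iff.mp h01, LinearMap.finrank_range_of_inj h0] at e1
  rw [LinearMap.exact_iff.mp h12, LinearMap.range_eq_top.mpr h2, finrank_top] at e2
  omega


end Fermat.Agent.S56.GW

end
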