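/-
S56 (Taylor-Wiles primes), block (G1), leaf `Rep`.  See `Fermat/Agent/S56/GW/G1/Main.lean` for the plan:
  `0 → Hom_G(σ, F_p(1)) → Hom_G(σ, J) = ∏_v Hom_{D_v}(σ, F_p(1)) → Hom_G(σ, W) ≅ H²(G_S,σ)^* → Ш¹_S(σ^*(1)) → 0`.
-/
import Fermat.Agent.S56.GW.G1.LinAlg
import Fermat.Agent.S56.GW.G1.Hom
import Fermat.Agent.PT.Final.Top

set_option autoImplicit false
set_option maxHeartbeats 400000
set_option linter.unusedSectionVars false

open CategoryTheory groupCohomology ExtCitation Module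

noncomputable section

namespace Fermat.Agent.S56.GW

open Fermat.Agent.PT

variable {p : ℕ} [Fact p.Prime] {S : Finset Nat.Primes}

/-- `thetaQ` with values in `sha₁`. -/
def thetaSha (hp2 : p ≠ 2) (hpS : pPrime p ∈ S) (M : Rep (ZMod p) GQ) [FiniteDimensional (ZMod p) M]
    (hM : ∃ U ∈ LS S, ∀ u ∈ U, M.ρ u = 1) :
    EHomOn ⊤ M.ρ (WQ p hpS) →ₗ[ZMod p] sha₁ S (M.dualTwist (cycloChar p)) :=
  LinearMap.codRestrict _ (thetaQ hpS M) (thetaQ_mem_sha₁ hpS M hp2 hM)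

/-- `H²(G_S, M)^* ≅ Hom_G(M, W)`: copy the first lines of `PT.S55_main`
(`obtain ⟨lam, hbase, hrec, hloc⟩ := S55Contracts_all hp2 S hpS`, `exists_trace`, `alpha_bijective`). -/
theorem exists_alpha_bijective (hp2 : p ≠ 2) (hpS : pPrime p ∈ S) {B : Type} [AddCommGroup B]
    [Module (ZMod p) B] [Module.Finite (ZMod p) B] (σ : Representation (ZMod p) GQ B)
    (hσ : IsSmoothRep (LS S) σ) :
    ∃ a : EHomOn ⊤ σ (WQ p hpS) →ₗ[ZMod p] Module.Dual (ZMod p) (H2 (LS S) ⊤ σ),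
      Function.Bijective a := by
  obtain ⟨lam, hbase, hrec, -⟩ := S55Contracts_all hp2 S hpS
  obtain ⟨tr, htr⟩ := exists_trace hpS lam hrec
  exact ⟨alpha (LS S) ⊤ (WQ p hpS) tr σ,
    alpha_bijective (LS S) (WQ p hpS) tr (Fermat.Agent.PT.G1 p) (isOpen_LS_G1 hpS) (G1_index p)
      (hbase tr htr) σ hσ⟩

theorem Rep_exact (hp2 : p ≠ 2) (hpS : pPrime p ∈ S) (M : Rep (ZMod p) GQ)
    [FiniteDimensional (ZMod p) M] (hM : ∃ U ∈ LS S, ∀ u ∈ U, M.ρ u = 1) :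
    Function.Exact (projW M.ρ hpS) (thetaSha hp2 hpS M hM) := by
  intro φ
  have h1 : thetaSha hp2 hpS M hM φ = 0 ↔ thetaQ hpS M φ = 0 := by
    rw [← Submodule.coe_eq_zero]
    rfl
  rw [h1, thetaQ_eq_zero_iff]
  constructor
  · rintro ⟨φJ, h⟩
    exact ⟨φJ, h.symm⟩
  · rintro ⟨φJ, h⟩
    exact ⟨φJ, h.symm⟩

theorem Rep_surj (hp2 : p ≠ 2) (hpS : pPrime p ∈ S) (M : Rep (ZMod p) GQ)
    [FiniteDimensional (ZMod p) M] (hM : ∃ U ∈ LS S, ∀ u ∈ U, M.ρ u = 1) :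
    Function.Surjective (thetaSha hp2 hpS M hM) := by
  intro y
  obtain ⟨φ, hφ⟩ := thetaQ_surjOn hpS M hp2 hM y.1 y.2
  exact ⟨φ, Subtype.ext hφ⟩

/-- the abstract bookkeeping (`A1` is only an additive monoid: the instance `AddCommGroup` on
`Hom_G(M, J)` is not found by instance resolution; we transport along `eJ`). -/
theorem Rep_count {K : Type*} [Field K] {A0 A1 A2 A3 H : Type*} {ι : Type*} [Fintype ι]
    {E : ι → Type*} [∀ i, AddCommGroup (E i)] [∀ i, Module K (E i)] [∀ i, Module.Finite K (E i)]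
    [AddCommGroup A0] [Module K A0] [AddCommMonoid A1] [Module K A1]
    [AddCommGroup A2] [Module K A2] [AddCommGroup A3] [Module K A3] [AddCommGroup H] [Module K H]
    (f0 : A0 →ₗ[K] A1) (f1 : A1 →ₗ[K] A2) (f2 : A2 →ₗ[K] A3)
    (h0 : Function.Injective f0) (h01 : Function.Exact f0 f1) (h12 : Function.Exact f1 f2)
    (h2 : Function.Surjective f2) (eJ : A1 →ₗ[K] (∀ i, E i)) (heJ : Function.Bijective eJ)
    (eA : A2 →ₗ[K] Module.Dual K H) (heA : Function.Bijective eA) :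
    (Module.Finite K H ↔ Module.Finite K A3) ∧
      (Module.Finite K A3 → finrank K H + finrank K A0 = ∑ i, finrank K (E i) + finrank K A3) := by
  let e : A1 ≃ₗ[K] (∀ i, E i) := LinearEquiv.ofBijective eJ heJ
  have h0' : Function.Injective (e.toLinearMap ∘ₗ f0) := e.injective.comp h0
  have h01' : Function.Exact (e.toLinearMap ∘ₗ f0) (f1 ∘ₗ e.symm.toLinearMap) := by
    intro y
    have h3 := h01 (e.symm y)
    constructor
    · intro h4
      obtain ⟨x, hx⟩ := h3.mp h4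
      exact ⟨x, by
        show e (f0 x) = y
        rw [hx, LinearEquiv.apply_symm_apply]⟩
    · rintro ⟨x, rfl⟩
      show f1 (e.symm (e (f0 x))) = 0
      rw [LinearEquiv.symm_apply_apply]
      exact (h01 (f0 x)).mpr ⟨x, rfl⟩
  have h12' : Function.Exact (f1 ∘ₗ e.symm.toLinearMap) f2 := by
    intro z
    rw [h12 z]
    constructor
    · rintro ⟨x, rfl⟩
      exact ⟨e x, by
        show f1 (e.symm (e x)) = f1 x
        rw [LinearEquiv.symm_apply_apply]⟩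
    · rintro ⟨y, rfl⟩
      exact ⟨e.symm y, rfl⟩
  have key := finrank_four_term (e.toLinearMap ∘ₗ f0) (f1 ∘ₗ e.symm.toLinearMap) f2 h0' h01' h12' h2
  have hfinA : Module.Finite K H ↔ Module.Finite K A2 := by
    rw [← Module.finite_dual_iff K]
    exact ⟨fun _ => Module.Finite.equiv (LinearEquiv.ofBijective eA heA).symm,
      fun _ => Module.Finite.equiv (LinearEquiv.ofBijective eA heA)⟩
  refine ⟨hfinA.trans key.1, fun h => ?_⟩
  have h3 := key.2 h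
  rw [(LinearEquiv.ofBijective eA heA).finrank_eq, Subspace.dual_finrank_eq,
    Module.finrank_pi_fintype] at h3
  exact h3

/-- `finrank_four_term` for `inclJ`, `projW`, `thetaSha` (`thetaQ_eq_zero_iff`, `thetaQ_surjOn`); `A1 = Hom_G(M,J)` is
finite of dimension `∑ ...` by `evJ_bijective` (`LinearEquiv.ofBijective`, `Module.finrank_pi_fintype`,
each `EHomOn .. ≤ (M →ₗ ZMod p)` is finite);  `A2 = Hom_G(M,W) ≃ Dual (H2)` by `exists_alpha_bijective`;
`Module.finite_dual_iff`, `Subspace.dual_finrank_eq`. -/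
theorem G1_rep (hp2 : p ≠ 2) (hpS : pPrime p ∈ S) (M : Rep (ZMod p) GQ)
    [FiniteDimensional (ZMod p) M] (hM : ∃ U ∈ LS S, ∀ u ∈ U, M.ρ u = 1) :
    (Module.Finite (ZMod p) (H2 (LS S) ⊤ M.ρ) ↔
        Module.Finite (ZMod p) (sha₁ S (M.dualTwist (cycloChar p)))) ∧
      (Module.Finite (ZMod p) (sha₁ S (M.dualTwist (cycloChar p))) →
        finrank (ZMod p) (H2 (LS S) ⊤ M.ρ) + finrank (ZMod p) (EHomOn ⊤ M.ρ (cycRep p)) =
          ∑ ℓ : ↥S, finrank (ZMod p) (EHomOn (Dl ℓ.1) M.ρ (cycRep p)) +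
            finrank (ZMod p) (sha₁ S (M.dualTwist (cycloChar p)))) := by
  obtain ⟨a, ha⟩ := exists_alpha_bijective hp2 hpS M.ρ (isSmoothRep_of_level hM)
  exact Rep_count (K := ZMod p) (A0 := EHomOn ⊤ M.ρ (cycRep p))
    (A1 := EHomOn ⊤ M.ρ (JQ p S)) (A2 := EHomOn ⊤ M.ρ (WQ p hpS))
    (A3 := sha₁ S (M.dualTwist (cycloChar p))) (H := H2 (LS S) ⊤ M.ρ) (ι := ↥S)
    (E := fun ℓ : ↥S => EHomOn (Dl ℓ.1) M.ρ (cycRep p))
    (inclJ (S := S) M.ρ hpS) (projW (S := S) M.ρ hpS) (thetaSha (S := S) hp2 hpS M hM)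
    (inclJ_injective (S := S) M.ρ hpS) (exact_inclJ_projW (S := S) M.ρ hpS)
    (Rep_exact (S := S) hp2 hpS M hM)
    (Rep_surj (S := S) hp2 hpS M hM) (evJ M.ρ S) (evJ_bijective (S := S) M.ρ hM) a ha


end Fermat.Agent.S56.GW

end
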