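/-
S56 (Taylor-Wiles primes), block (G1), leaf `Sha`.  See `Fermat/Agent/S56/GW/G1/Main.lean` for the plan:
  `0 → Hom_G(σ, F_p(1)) → Hom_G(σ, J) = ∏_v Hom_{D_v}(σ, F_p(1)) → Hom_G(σ, W) ≅ H²(G_S,σ)^* → Ш¹_S(σ^*(1)) → 0`.
-/
import Fermat.Agent.S56.GW.Sel
import Fermat.Agent.PT.Bridge.Sha1
import Fermat.Agent.PT.Bridge.H2S
import Fermat.Agent.PT.Coh.DictV

set_option autoImplicit false
set_option maxHeartbeats 400000
set_option linter.unusedSectionVars false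

open CategoryTheory groupCohomology ExtCitation Module

noncomputable section

namespace Fermat.Agent.S56.GW

open Fermat.Agent.PT

section abstract

variable {k G A : Type*} [CommRing k] [Group G] [AddCommGroup A] [Module k A]
  {L : LevelSystem G} {ρ : Representation k G A}

/-- `ofInh1` of a level-constant COCYCLE is a smooth homogeneous cochain (no smoothness of `ρ` needed: the values of
such a cocycle are fixed by the level). -/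
lemma Sha_ofInh1_mem_X1 {c : G → A} (hc : c ∈ Inh.Z1 L ρ) : ofInh1 ρ c ∈ X1 L ⊤ ρ := by
  obtain ⟨⟨U, hU, h⟩, hcoc⟩ := Inh.mem_Z1.1 hc
  have hn := L.normal' U hU
  have h1 : c 1 = 0 := by
    have := hcoc 1 1
    simpa using this
  have hu0 : ∀ u ∈ U, c u = 0 := fun u hu => by
    have := h 1 u hu
    rw [one_mul] at this
    rw [this, h1]
  have hfix : ∀ x, ∀ u ∈ U, ρ u (c x) = c x := by
    intro x u hu
    have e1 := hcoc u x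
    rw [hu0 u hu, add_zero] at e1
    rw [← e1]
    have e2 : u * x = x * (x⁻¹ * u * x) := by group
    rw [e2]
    apply h
    have := hn.conj_mem u hu x⁻¹
    simpa using this
  refine ⟨fun v _ g₀ g₁ => ?_, U, hU, fun g₀ g₁ u₀ h₀ u₁ h₁ => ?_⟩
  · simp only [ofInh1_apply, mul_inv_rev, map_mul, Module.End.mul_apply]
    congr 3
    group
  · simp only [ofInh1_apply, map_mul, Module.End.mul_apply]
    obtain ⟨t, ht, hEq⟩ := Dict_two_sided hU (g₀⁻¹ * g₁) u₀⁻¹ u₁ (U.inv_mem h₀) h₁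
    have h2 : (g₀ * u₀)⁻¹ * (g₁ * u₁) = (g₀⁻¹ * g₁) * t := by rw [← hEq]; group
    rw [h2, h _ t ht, hfix _ u₀ h₀]

lemma Sha_ofInh1_mem_Z1 {c : G → A} (hc : c ∈ Inh.Z1 L ρ) : ofInh1 ρ c ∈ Z1 L ⊤ ρ := by
  obtain ⟨-, hcoc⟩ := Inh.mem_Z1.1 hc
  refine mem_Z1.2 ⟨Sha_ofInh1_mem_X1 hc, ?_⟩
  funext g₀ g₁ g₂
  simp only [d1_apply, ofInh1_apply, Pi.zero_apply]
  have e : g₀⁻¹ * g₂ = (g₀⁻¹ * g₁) * (g₁⁻¹ * g₂) := by group
  have key := hcoc (g₀⁻¹ * g₁) (g₁⁻¹ * g₂)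
  rw [← e] at key
  have key2 := congrArg (ρ g₀) key
  rw [map_add, ← Module.End.mul_apply, ← map_mul] at key2
  have e2 : g₀ * (g₀⁻¹ * g₁) = g₁ := by group
  rw [e2] at key2
  rw [key2]
  abel

end abstract

variable {p : ℕ} [Fact p.Prime] {S : Finset Nat.Primes}

variable {A B : Type} [AddCommGroup A] [Module (ZMod p) A] [AddCommGroup B] [Module (ZMod p) B]
  {ρ : Representation (ZMod p) GQ A} {σ : Representation (ZMod p) GQ B}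
  {β : A →ₗ[ZMod p] B →ₗ[ZMod p] ZMod p}

/-- The Prelude's `σ^*(1)`. -/
abbrev ShaN (σ : Representation (ZMod p) GQ B) : Rep (ZMod p) GQ :=
  (Rep.of σ).dualTwist (cycloChar p)

/-- `β` as a map to (the underlying module of) `σ^*(1)`. -/
def ShaB (σ : Representation (ZMod p) GQ B) (β : A →ₗ[ZMod p] B →ₗ[ZMod p] ZMod p) :
    A →ₗ[ZMod p] ShaN σ := β

theorem ShaB_equivariant (hβ : IsPairingOn ⊤ ρ σ (cycRep p) β) (g : GQ) (a : A) :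
    ShaB σ β (ρ g a) = (ShaN σ).ρ g (ShaB σ β a) := by
  refine LinearMap.ext fun b => ?_
  have h := hβ g (Subgroup.mem_top g) a (σ g⁻¹ b)
  rw [← Module.End.mul_apply, ← map_mul, mul_inv_cancel, map_one, Module.End.one_apply,
    cycRep_apply] at h
  exact h

/-- `f ↦ (g ↦ β (f 1 g))` on cochains. -/
def ShaT0 (σ : Representation (ZMod p) GQ B) (β : A →ₗ[ZMod p] B →ₗ[ZMod p] ZMod p) :
    (GQ → GQ → A) →ₗ[ZMod p] (GQ → ShaN σ) where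
  toFun f := fun g => ShaB σ β (f 1 g)
  map_add' f f' := by funext g; simp
  map_smul' c f := by funext g; simp

theorem ShaT0_mem (hβ : IsPairingOn ⊤ ρ σ (cycRep p) β) {L : LevelSystem GQ} {f : GQ → GQ → A}
    (hf : f ∈ Z1 L ⊤ ρ) : ShaT0 σ β f ∈ cocycles₁ (ShaN σ) := by
  rw [mem_cocycles₁_iff]
  intro g h
  have h1 := (Inh.mem_Z1.1 (toInh1_mem_Z1 hf)).2 g h
  simp only [toInh1_apply] at h1
  show ShaB σ β (f 1 (g * h)) = (ShaN σ).ρ g (ShaB σ β (f 1 h)) + ShaB σ β (f 1 g)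
  rw [h1, map_add, ShaB_equivariant hβ]

/-- `f ↦ (g ↦ β (f 1 g))` on cocycles. -/
def ShaT (hβ : IsPairingOn ⊤ ρ σ (cycRep p) β) (L : LevelSystem GQ) :
    Z1 L ⊤ ρ →ₗ[ZMod p] cocycles₁ (ShaN σ) :=
  LinearMap.codRestrict _ ((ShaT0 σ β).comp (Z1 L ⊤ ρ).subtype) fun z => ShaT0_mem hβ z.2

theorem ShaT_apply (hβ : IsPairingOn ⊤ ρ σ (cycRep p) β) (L : LevelSystem GQ) (z : Z1 L ⊤ ρ)
    (g : GQ) : (ShaT hβ L z : GQ → ShaN σ) g = ShaB σ β ((z : GQ → GQ → A) 1 g) := rfl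

theorem Sha_H1π_eq_zero_iff (N : Rep (ZMod p) GQ) (a : cocycles₁ N) :
    (H1π N).hom a = 0 ↔ ∃ b : N, ∀ g, (a : GQ → N) g = N.ρ g b - b := by
  rw [H1π_eq_zero_iff]
  constructor
  · rintro ⟨b, hb⟩
    refine ⟨b, fun g => ?_⟩
    have := congrFun hb g
    rw [d₀₁_hom_apply] at this
    exact this.symm
  · rintro ⟨b, hb⟩
    refine ⟨b, ?_⟩
    funext g
    rw [d₀₁_hom_apply]
    exact (hb g).symm

theorem ShaT_eq_zero_iff (hβ : IsPairingOn ⊤ ρ σ (cycRep p) β) (hβl : Function.Bijective β)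
    (L : LevelSystem GQ) (z : Z1 L ⊤ ρ) :
    (H1π (ShaN σ)).hom (ShaT hβ L z) = 0 ↔ (z : GQ → GQ → A) ∈ B1 L ⊤ ρ := by
  rw [Sha_H1π_eq_zero_iff, mem_B1_iff z.2]
  constructor
  · rintro ⟨b, hb⟩
    obtain ⟨a, rfl⟩ : ∃ a, ShaB σ β a = b := hβl.2 b
    refine ⟨a, fun g _ => ?_⟩
    have h := hb g
    rw [ShaT_apply, ← ShaB_equivariant hβ, ← map_sub] at h
    exact hβl.1 h
  · rintro ⟨a, ha⟩
    refine ⟨ShaB σ β a, fun g => ?_⟩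
    rw [ShaT_apply, ha g (Subgroup.mem_top g), map_sub, ShaB_equivariant hβ]

/-- The map on `H¹`. -/
def ShaΨ (hβ : IsPairingOn ⊤ ρ σ (cycRep p) β) (hβl : Function.Bijective β) (L : LevelSystem GQ) :
    PT.H1 L ⊤ ρ →ₗ[ZMod p] groupCohomology.H1 (ShaN σ) :=
  Submodule.liftQ _ ((H1π (ShaN σ)).hom.comp (ShaT hβ L)) fun z hz =>
    (ShaT_eq_zero_iff hβ hβl L z).2 hz

theorem ShaΨ_mk (hβ : IsPairingOn ⊤ ρ σ (cycRep p) β) (hβl : Function.Bijective β)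
    (L : LevelSystem GQ) (z : Z1 L ⊤ ρ) :
    ShaΨ hβ hβl L (H1.mk L ⊤ ρ z) = (H1π (ShaN σ)).hom (ShaT hβ L z) := rfl

theorem ShaΨ_injective (hβ : IsPairingOn ⊤ ρ σ (cycRep p) β) (hβl : Function.Bijective β)
    (L : LevelSystem GQ) : Function.Injective (ShaΨ hβ hβl L) := by
  rw [injective_iff_map_eq_zero]
  intro x hx
  obtain ⟨z, rfl⟩ := H1.mk_surjective L ⊤ ρ x
  rw [ShaΨ_mk, ShaT_eq_zero_iff hβ hβl] at hx
  exact (H1.mk_eq_zero_iff L ⊤ ρ z).2 hx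

theorem Sha_mk_mem_Sh1_iff (z : Z1 (LS S) ⊤ ρ) :
    H1.mk (LS S) ⊤ ρ z ∈ Sh1 S ρ ↔
      ∀ v ∈ S, ∃ a : A, ∀ d ∈ Dl v, (z : GQ → GQ → A) 1 d = ρ d a - a := by
  rw [Sh1, mem_Sel]
  refine forall₂_congr fun v _ => ?_
  rw [Submodule.mem_bot]
  have hz : (z : GQ → GQ → A) ∈ Z1 Lall (⊤ ⊓ Dl v) ρ :=
    ((inclC ρ (LS_le_Lall S) (inf_le_left : ⊤ ⊓ Dl v ≤ ⊤)).Z1 z).2
  refine (H1.mk_eq_zero_iff Lall (⊤ ⊓ Dl v) ρ _).trans ((mem_B1_iff hz).trans ?_)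
  exact exists_congr fun a => ⟨fun h d hd => h d ⟨Subgroup.mem_top d, hd⟩, fun h d hd => h d hd.2⟩

theorem ShaΨ_mem (hp2 : p ≠ 2) (hβ : IsPairingOn ⊤ ρ σ (cycRep p) β)
    (hβl : Function.Bijective β) (x : PT.H1 (LS S) ⊤ ρ) (hx : x ∈ Sh1 S ρ) :
    ShaΨ hβ hβl (LS S) x ∈ sha₁ S (ShaN σ) := by
  obtain ⟨z, rfl⟩ := H1.mk_surjective (LS S) ⊤ ρ x
  rw [Sha_mk_mem_Sh1_iff] at hx
  rw [mem_sha₁_iff hp2]
  refine ⟨ShaT hβ (LS S) z, ?_, fun ℓ => ?_, rfl⟩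
  · rw [isLevelConstantS₁_iff]
    obtain ⟨U, hU, h⟩ := (Inh.mem_Z1.1 (toInh1_mem_Z1 z.2)).1
    refine ⟨U, hU, fun g s hs => ?_⟩
    have := h g s hs
    simp only [toInh1_apply] at this
    rw [ShaT_apply, ShaT_apply, this]
  · obtain ⟨a, ha⟩ := hx ℓ.1 ℓ.2
    refine ⟨ShaB σ β a, fun d hd => ?_⟩
    rw [ShaT_apply, ha d hd, map_sub, ShaB_equivariant hβ]

theorem ShaΨ_surj (hp2 : p ≠ 2) (hβ : IsPairingOn ⊤ ρ σ (cycRep p) β)
    (hβl : Function.Bijective β) (y : groupCohomology.H1 (ShaN σ)) (hy : y ∈ sha₁ S (ShaN σ)) :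
    ∃ x ∈ Sh1 S ρ, ShaΨ hβ hβl (LS S) x = y := by
  rw [mem_sha₁_iff hp2] at hy
  obtain ⟨a, hlc, hloc, rfl⟩ := hy
  rw [isLevelConstantS₁_iff] at hlc
  let e : A ≃ₗ[ZMod p] ShaN σ := LinearEquiv.ofBijective (ShaB σ β) hβl
  have he : ∀ x, e x = ShaB σ β x := fun _ => rfl
  have hes : ∀ g (b : ShaN σ), e.symm ((ShaN σ).ρ g b) = ρ g (e.symm b) := by
    intro g b
    rw [LinearEquiv.symm_apply_eq, he, ShaB_equivariant hβ, ← he, LinearEquiv.apply_symm_apply]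
  have hcoc := (mem_cocycles₁_iff (a : GQ → ShaN σ)).1 a.2
  have hc : (fun g => e.symm ((a : GQ → ShaN σ) g)) ∈ Inh.Z1 (LS S) ρ := by
    rw [Inh.mem_Z1]
    obtain ⟨U, hU, h⟩ := hlc
    refine ⟨⟨U, hU, fun g s hs => ?_⟩, fun g h => ?_⟩
    · show e.symm _ = e.symm _
      rw [h g s hs]
    · show e.symm _ = ρ g (e.symm _) + e.symm _
      rw [hcoc g h, map_add, hes]
  have hz := Sha_ofInh1_mem_Z1 hc
  have h1 : ∀ g, ofInh1 ρ (fun g => e.symm ((a : GQ → ShaN σ) g)) 1 g =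
      e.symm ((a : GQ → ShaN σ) g) := by
    intro g
    simp
  refine ⟨H1.mk (LS S) ⊤ ρ ⟨_, hz⟩, ?_, ?_⟩
  · rw [Sha_mk_mem_Sh1_iff]
    intro v hv
    obtain ⟨b, hb⟩ := hloc ⟨v, hv⟩
    refine ⟨e.symm b, fun d hd => ?_⟩
    show ofInh1 ρ (fun g => e.symm ((a : GQ → ShaN σ) g)) 1 d = _
    rw [h1, hb d hd, map_sub, hes]
  · rw [ShaΨ_mk]
    congr 1
    refine Subtype.ext (funext fun g => ?_)
    show ShaB σ β (ofInh1 ρ (fun g => e.symm ((a : GQ → ShaN σ) g)) 1 g) = _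
    rw [h1, ← he, LinearEquiv.apply_symm_apply]
    rfl

/-- `Ш¹_S(ρ)` (relative model) `≃` the Prelude's `sha₁ S (σ^*(1))`:  `[f] ↦ [g ↦ β (f 1 g)]`.
Tools: `mem_sha₁_iff hp2`, `isLevelConstantS₁_iff`, `PT/Coh/Dict.lean` (`toInh1`, `ofInh1`, `dictH1_bijective`),
`PT/Coh/DictV.lean` (`mem_B1_iff`), `H1π_eq_zero_iff`, `mem_cocycles₁_iff`; `ρ` is `LS S`-smooth because `σ` is and
`β` is injective and equivariant. -/
theorem exists_Sh1_equiv (hp2 : p ≠ 2) (S : Finset Nat.Primes) [Module.Finite (ZMod p) B]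
    (hσ : IsSmoothRep (LS S) σ)
    (hβ : IsPairingOn ⊤ ρ σ (cycRep p) β) (hβl : Function.Bijective β) :
    Nonempty (Sh1 S ρ ≃ₗ[ZMod p] sha₁ S ((Rep.of σ).dualTwist (cycloChar p))) := by
  refine ⟨LinearEquiv.ofBijective
    ((ShaΨ hβ hβl (LS S)).restrict (ShaΨ_mem hp2 hβ hβl)) ⟨?_, ?_⟩⟩
  · intro x x' h
    have h' := congrArg Subtype.val h
    exact Subtype.ext (ShaΨ_injective hβ hβl (LS S) h')
  · rintro ⟨y, hy⟩
    obtain ⟨x, hx, rfl⟩ := ShaΨ_surj hp2 hβ hβl y hy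
    exact ⟨⟨x, hx⟩, rfl⟩


end Fermat.Agent.S56.GW

end
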