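/-
S56 (Taylor-Wiles primes), block (G1), leaf `ShaPT`.  See `Fermat/Agent/S56/GW/G1/Main.lean` for the plan:
  `0 → Hom_G(σ, F_p(1)) → Hom_G(σ, J) = ∏_v Hom_{D_v}(σ, F_p(1)) → Hom_G(σ, W) ≅ H²(G_S,σ)^* → Ш¹_S(σ^*(1)) → 0`.
-/
import Fermat.Agent.S56.GW.Sel
import Fermat.Agent.PT.Coh.DictV
import Fermat.Agent.PT.Base.Conj

set_option autoImplicit false
set_option maxHeartbeats 400000
set_option linter.unusedSectionVars false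

open CategoryTheory groupCohomology ExtCitation Module
open scoped Pointwise

noncomputable section

namespace Fermat.Agent.S56.GW

open Fermat.Agent.PT

variable {p : ℕ} [Fact p.Prime] {S : Finset Nat.Primes}

variable {A B : Type} [AddCommGroup A] [Module (ZMod p) A] [AddCommGroup B] [Module (ZMod p) B]
  {ρ : Representation (ZMod p) GQ A} {σ : Representation (ZMod p) GQ B}
  {β : A →ₗ[ZMod p] B →ₗ[ZMod p] ZMod p}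

/-- local triviality at `𝒜` and at `γ 𝒜` are equivalent for global `1`-cochains. -/
theorem ShaPT_mem_B1_smul {L' : LevelSystem GQ} {ρ : Representation (ZMod p) GQ A}
    {z : GQ → GQ → A} (hz : z ∈ X1 L' ⊤ ρ) (γ : GQ) {𝒜 : Place}
    (h : z ∈ B1 Lall (⊤ ⊓ Dec 𝒜) ρ) : z ∈ B1 Lall (⊤ ⊓ Dec (γ • 𝒜)) ρ := by
  have hc : ∀ w ∈ (⊤ : Subgroup GQ) ⊓ Dec (γ • 𝒜), γ⁻¹ * w * γ ∈ (⊤ : Subgroup GQ) ⊓ Dec 𝒜 :=
    fun w hw => ⟨Subgroup.mem_top _, (Base.mem_Dec_smul_iff γ w 𝒜).1 hw.2⟩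
  have h1 := (twC Lall ρ γ hc).memB1 h
  have h2 : tw1 ρ γ z = z := tw1_of_mem (Subgroup.mem_top γ) hz
  have h3 : tw1 ρ γ z ∈ B1 Lall (⊤ ⊓ Dec (γ • 𝒜)) ρ := h1
  rwa [h2] at h3

theorem ShaPT_mem_ShaZ1_iff {ρ : Representation (ZMod p) GQ A} {z : GQ → GQ → A}
    (hz : z ∈ Z1 (LS S) ⊤ ρ) :
    z ∈ ShaZ1 S ⊤ ρ ↔ ∀ v ∈ S, z ∈ B1 Lall (⊤ ⊓ Dl v) ρ := by
  simp only [ShaZ1, Submodule.mem_inf, Submodule.mem_iInf]
  constructor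
  · rintro ⟨-, h⟩ v hv
    exact h _ ⟨v, hv, Base.liesOver_Pl0 v⟩
  · intro h
    refine ⟨hz, ?_⟩
    rintro 𝒜 ⟨v, hv, h𝒜⟩
    obtain ⟨g, rfl⟩ := Base.exists_smul_Pl0_eq h𝒜
    exact ShaPT_mem_B1_smul (mem_Z1.1 hz).1 g (h v hv)

theorem ShaPT_mk_mem_Sh1_iff {ρ : Representation (ZMod p) GQ A} (z : Z1 (LS S) ⊤ ρ) :
    H1.mk (LS S) ⊤ ρ z ∈ Sh1 S ρ ↔ ∀ v ∈ S, (z : GQ → GQ → A) ∈ B1 Lall (⊤ ⊓ Dl v) ρ := by
  rw [Sh1, mem_Sel]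
  refine forall₂_congr fun v _ => ?_
  rw [Submodule.mem_bot]
  exact H1.mk_eq_zero_iff Lall (⊤ ⊓ Dl v) ρ _

/-- The map `ShaZ1 → H¹`. -/
def ShaPT_map (S : Finset Nat.Primes) (ρ : Representation (ZMod p) GQ A) :
    ShaZ1 S ⊤ ρ →ₗ[ZMod p] H1 (LS S) ⊤ ρ :=
  (H1.mk (LS S) ⊤ ρ).comp (Submodule.inclusion (inf_le_left : ShaZ1 S ⊤ ρ ≤ Z1 (LS S) ⊤ ρ))

theorem ShaPT_ker (S : Finset Nat.Primes) (ρ : Representation (ZMod p) GQ A) :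
    LinearMap.ker (ShaPT_map S ρ) = (B1 (LS S) ⊤ ρ).submoduleOf (ShaZ1 S ⊤ ρ) := by
  ext z
  rw [LinearMap.mem_ker]
  exact H1.mk_eq_zero_iff (LS S) ⊤ ρ _

theorem ShaPT_range (S : Finset Nat.Primes) (ρ : Representation (ZMod p) GQ A) :
    LinearMap.range (ShaPT_map S ρ) = Sh1 S ρ := by
  ext x
  constructor
  · rintro ⟨z, rfl⟩
    exact (ShaPT_mk_mem_Sh1_iff _).2 ((ShaPT_mem_ShaZ1_iff z.2.1).1 z.2)
  · intro hx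
    obtain ⟨z, rfl⟩ := H1.mk_surjective (LS S) ⊤ ρ x
    exact ⟨⟨z, (ShaPT_mem_ShaZ1_iff z.2).2 ((ShaPT_mk_mem_Sh1_iff z).1 hx)⟩, rfl⟩

/-- Comparison with `PT.Sha1` (all places over `S` instead of the places `primeLocalPlace v`): the places over `v` are
conjugate (`PT`: grep `exists_smul_eq` / `IsPlaceSystem` / `Koch`), `Dec (g • 𝒜) = g Dec 𝒜 g⁻¹`, and for a cocycle `c` of `GQ`
with `c d = ρ d a - a` on `Dec 𝒜` one has `c d' = ρ d' a' - a'` on `g Dec 𝒜 g⁻¹`, `a' = ρ g a - c g` (`mem_B1_iff`). -/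
theorem exists_Sh1_equiv_Sha1 (S : Finset Nat.Primes) (ρ : Representation (ZMod p) GQ A) :
    Nonempty (Sh1 S ρ ≃ₗ[ZMod p] Sha1 S ⊤ ρ) :=
  ⟨((Submodule.quotEquivOfEq _ _ (ShaPT_ker S ρ).symm).trans
    ((ShaPT_map S ρ).quotKerEquivRange.trans (LinearEquiv.ofEq _ _ (ShaPT_range S ρ)))).symm⟩


end Fermat.Agent.S56.GW

end
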