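/-
S56 (Taylor-Wiles primes), block (G1), leaf `Main`.  See `Fermat/Agent/S56/GW/G1/Main.lean` for the plan:
  `0 → Hom_G(σ, F_p(1)) → Hom_G(σ, J) = ∏_v Hom_{D_v}(σ, F_p(1)) → Hom_G(σ, W) ≅ H²(G_S,σ)^* → Ш¹_S(σ^*(1)) → 0`.
-/
import Fermat.Agent.S56.GW.G1.Rep
import Fermat.Agent.S56.GW.G1.Inv
import Fermat.Agent.S56.GW.G1.Sha
import Fermat.Agent.S56.GW.G1.ShaPT

set_option autoImplicit false
set_option maxHeartbeats 400000
set_option linter.unusedSectionVars false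

open CategoryTheory groupCohomology ExtCitation Module

noncomputable section

namespace Fermat.Agent.S56.GW

open Fermat.Agent.PT

variable {p : ℕ} [Fact p.Prime] {S : Finset Nat.Primes}

variable {A B : Type} [AddCommGroup A] [Module (ZMod p) A] [AddCommGroup B] [Module (ZMod p) B]
  {ρ : Representation (ZMod p) GQ A} {σ : Representation (ZMod p) GQ B}
  {β : A →ₗ[ZMod p] B →ₗ[ZMod p] ZMod p}

/-- a finite smooth representation is trivial on a level (`PT.exists_level_trivial`). -/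
theorem exists_level_of_smooth [Module.Finite (ZMod p) B] (hσ : IsSmoothRep (LS S) σ) :
    ∃ U ∈ LS S, ∀ u ∈ U, σ u = 1 := exists_level_trivial hσ

/-- **(G1)**.  `β : A × B → F_p(1)` an equivariant pairing inducing `A ≅ B^*`. -/
theorem G1 (hp2 : p ≠ 2) (hpS : pPrime p ∈ S) [Module.Finite (ZMod p) B]
    (hσ : IsSmoothRep (LS S) σ)
    (hβ : IsPairingOn ⊤ ρ σ (cycRep p) β) (hβl : Function.Bijective β) :
    (Module.Finite (ZMod p) (H2 (LS S) ⊤ σ) ↔ Module.Finite (ZMod p) (Sh1 S ρ)) ∧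
      (Module.Finite (ZMod p) (Sh1 S ρ) →
        finrank (ZMod p) (H2 (LS S) ⊤ σ) + finrank (ZMod p) (invOf ⊤ ρ) =
          ∑ v : ↥S, finrank (ZMod p) (invOf (Dl v.1) ρ) + finrank (ZMod p) (Sh1 S ρ)) := by
  obtain ⟨e⟩ := exists_Sh1_equiv hp2 S hσ hβ hβl
  have key := G1_rep hp2 hpS (Rep.of σ) (exists_level_of_smooth hσ)
  have hfin : Module.Finite (ZMod p) (Sh1 S ρ) ↔
      Module.Finite (ZMod p) (sha₁ S ((Rep.of σ).dualTwist (cycloChar p))) :=
    ⟨fun _ => Module.Finite.equiv e, fun _ => Module.Finite.equiv e.symm⟩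
  refine ⟨key.1.trans hfin.symm, fun h => ?_⟩
  have h2 := key.2 (hfin.1 h)
  obtain ⟨e0⟩ := exists_invOf_equiv hβ hβl ⊤
  rw [e0.finrank_eq, e.finrank_eq]
  have h3 : ∀ v : ↥S, finrank (ZMod p) (invOf (Dl v.1) ρ) =
      finrank (ZMod p) (EHomOn (Dl v.1) σ (cycRep p)) := fun v => by
    obtain ⟨ev⟩ := exists_invOf_equiv hβ hβl (Dl v.1)
    exact ev.finrank_eq
  rw [Finset.sum_congr rfl fun v _ => h3 v]
  exact h2

/-- **(G1)** for `ρ = σ^*(1)`. -/
theorem G1_dual (hp2 : p ≠ 2) (hpS : pPrime p ∈ S) [Module.Finite (ZMod p) B]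
    (σ : Representation (ZMod p) GQ B) (hσ : IsSmoothRep (LS S) σ) :
    (Module.Finite (ZMod p) (H2 (LS S) ⊤ σ) ↔
        Module.Finite (ZMod p) (Sh1 S (σ.dual.twist (cycloChar p)))) ∧
      (Module.Finite (ZMod p) (Sh1 S (σ.dual.twist (cycloChar p))) →
        finrank (ZMod p) (H2 (LS S) ⊤ σ) + finrank (ZMod p) (invOf ⊤ (σ.dual.twist (cycloChar p))) =
          ∑ v : ↥S, finrank (ZMod p) (invOf (Dl v.1) (σ.dual.twist (cycloChar p))) +
            finrank (ZMod p) (Sh1 S (σ.dual.twist (cycloChar p)))) :=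
  G1 hp2 hpS hσ (isPairingOn_dual σ) Function.bijective_id


end Fermat.Agent.S56.GW

end
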