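/-
S56 (Taylor-Wiles primes), block (G1), leaf `Fin`: finiteness of `Ш¹_S(ρ)` for every finite `LS S`-smooth `ρ`.
Restrict to a level `U ≤ G1 p` acting trivially: the kernel of `Ш¹_S(⊤,ρ) → Ш¹_S(U,ρ)` consists of classes of cocycles
which factor through `GQ ⧸ U`, and `Ш¹_S(U,ρ) ↪ ∏ Ш¹_S(U,μ_p)` (coordinates), which is finite by block K of S55.
-/
import Fermat.Agent.S56.GW.G1.ShaPT
import Fermat.Agent.PT.Koch.Main
import Fermat.Agent.PT.B.Galois
import Fermat.Agent.PT.Duality.H3Van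

set_option autoImplicit false
set_option maxHeartbeats 400000
set_option linter.unusedSectionVars false

open ExtCitation Module

noncomputable section

namespace Fermat.Agent.S56.GW

open Fermat.Agent.PT

variable {p : ℕ} [Fact p.Prime] {S : Finset Nat.Primes}
variable {A : Type} [AddCommGroup A] [Module (ZMod p) A]

/-- (F1) copy of the first six lines of `PT.Koch.FC_of` (`PT/Koch/Main.lean`) with `K := kummerQbar p`:
`exists_field_of_isOpen`, `exists_zeta`, `Koch.card_Sha1`. -/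
theorem finite_Sha1_cyc (hp2 : p ≠ 2) (hpS : pPrime p ∈ S) (V : Subgroup GQ)
    (hV : (LS S).IsOpen V) (hV1 : V ≤ G1 p) : Finite (Sha1 S V (cycRep p)) := by
  obtain ⟨F, hF, hFV⟩ := Koch.exists_field_of_isOpen (Koch.isOpen_Lall_of_isOpen_LS hV)
  have hV' : V = Vof F := by rw [Vof_intermediateField, hFV]
  subst hV'
  have : NumberField F := numberField_of_finiteDimensional F
  obtain ⟨ζ, hζ⟩ := Koch.exists_zeta (N := F) (kummerQbar p) hV1
  exact (Koch.card_Sha1 (kummerQbar p) hp2 hζ hpS hV hV1).1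

/-- A quotient `M ⧸ N` is finite as soon as `N` contains the kernel of a linear map to a finite module. -/
theorem Fin_finite_quot {k M Y : Type*} [Ring k] [AddCommGroup M] [Module k M] [AddCommGroup Y]
    [Module k Y] [Finite Y] (Ψ : M →ₗ[k] Y) (N : Submodule k M) (h : LinearMap.ker Ψ ≤ N) :
    Finite (M ⧸ N) := by
  have h1 : Finite (M ⧸ LinearMap.ker Ψ) :=
    Finite.of_injective _ (LinearMap.quotKerEquivRange Ψ).injective
  exact Finite.of_surjective _ (Submodule.factor_surjective h)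

/-- composition with a linear form, on `ShaZ1` (both actions trivial on `U`). -/
theorem Fin_pp1_mem_ShaZ1 (ρ : Representation (ZMod p) GQ A) (U : Subgroup GQ) (hU1 : U ≤ G1 p)
    (hρU : ∀ u ∈ U, ρ u = 1) (φ : A →ₗ[ZMod p] ZMod p) {f : GQ → GQ → A}
    (hf : f ∈ ShaZ1 S U ρ) : pp1 (MonoidHom.id GQ) φ f ∈ ShaZ1 S U (cycRep p) := by
  have hφ : ∀ v ∈ U, ∀ a, φ (ρ v a) = cycRep p v (φ a) := by
    intro v hv a
    have h1 : cycloChar p v = 1 := hU1 hv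
    rw [hρU v hv, cycRep_apply, h1]
    simp
  simp only [ShaZ1, Submodule.mem_inf, Submodule.mem_iInf] at hf ⊢
  refine ⟨(mapC (LS S) U hφ).memZ1 hf.1, fun 𝒜 h𝒜 => ?_⟩
  exact (mapC Lall (U ⊓ Dec 𝒜) (fun v hv a => hφ v hv.1 a)).memB1 (hf.2 𝒜 h𝒜)

/-- (F3) `ρ` trivial on `U ≤ G1 p`.  For `φ : A →ₗ ZMod p` and `f ∈ ShaZ1 S U ρ` the function `φ ∘ f` lies in
`ShaZ1 S U (cycRep p)` (both actions are trivial on `U`: `cycRep p u = 1` for `u ∈ G1 p`, see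
`PT.LocDual.cycRep_eq_one_of_mem_G1`; membership in `Z1`, `B1` via the definitions or `mapC`), this induces
`Sha1 S U ρ → Sha1 S U (cycRep p)`.  Take the coordinates `φ_i` of a basis (`Module.finBasis`): the product map
`Sha1 S U ρ → (Fin n → Sha1 S U (cycRep p))` is injective:  `φ_i ∘ f ∈ B1 (LS S) U cyc` means `φ_i (f 1 u) = 0` on `U`
(`mem_B1_iff`, trivial action), so `f 1 u = 0 = ρ u 0 - 0`, so `f ∈ B1` (`mem_B1_iff`).  `Finite.of_injective`. -/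
theorem finite_Sha1_of_trivial (hp2 : p ≠ 2) (hpS : pPrime p ∈ S) [Module.Finite (ZMod p) A]
    (ρ : Representation (ZMod p) GQ A) (U : Subgroup GQ) (hU : U ∈ LS S) (hU1 : U ≤ G1 p)
    (hρU : ∀ u ∈ U, ρ u = 1) : Finite (Sha1 S U ρ) := by
  have hfin : Finite (Sha1 S U (cycRep p)) :=
    finite_Sha1_cyc hp2 hpS U (LevelSystem.isOpen_of_mem hU) hU1
  let b := Module.finBasis (ZMod p) A
  let Ψ : ShaZ1 S U ρ →ₗ[ZMod p] (Fin (finrank (ZMod p) A) → Sha1 S U (cycRep p)) :=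
    LinearMap.pi fun i => (Submodule.mkQ _).comp
      ((pp1 (MonoidHom.id GQ) (b.coord i)).restrict
        (fun _ hf => Fin_pp1_mem_ShaZ1 ρ U hU1 hρU (b.coord i) hf))
  refine Fin_finite_quot Ψ _ ?_
  intro z hz
  have hzZ : (z : GQ → GQ → A) ∈ Z1 (LS S) U ρ := z.2.1
  show (z : GQ → GQ → A) ∈ B1 (LS S) U ρ
  rw [mem_B1_iff hzZ]
  refine ⟨0, fun u hu => ?_⟩
  rw [map_zero, sub_zero]
  apply b.ext_elem
  intro i
  have h1 : Ψ z i = 0 := congrFun (LinearMap.mem_ker.1 hz) i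
  have h2 : pp1 (MonoidHom.id GQ) (b.coord i) (z : GQ → GQ → A) ∈ B1 (LS S) U (cycRep p) :=
    (Submodule.Quotient.mk_eq_zero
      ((B1 (LS S) U (cycRep p)).submoduleOf (ShaZ1 S U (cycRep p)))).1 h1
  have h3 := (Fin_pp1_mem_ShaZ1 ρ U hU1 hρU (b.coord i) z.2).1
  obtain ⟨a, ha⟩ := (mem_B1_iff h3).1 h2
  have h4 := ha u hu
  have h5 : cycloChar p u = 1 := hU1 hu
  rw [cycRep_apply, h5] at h4
  simpa using h4

/-- (F2) the cocycles of `GQ` which are coboundaries on `U` (`ρ` trivial on `U`, `A` finite) form a finite set: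
`f ∈ B1 (LS S) U ρ` gives `f 1 u = 0` on `U` (`mem_B1_iff`); `f g₀ g₁ = ρ g₀ (f 1 (g₀⁻¹ g₁))` (`ofInh1_toInh1`) and
`f 1 (g u) = f 1 g + ρ g (f 1 u) = f 1 g` (`inh1_cocycle`), so `f ↦ (gU ↦ f 1 g)` is an injection into the finite set
`GQ ⧸ U → A` (`U` has finite index: `(LS S).finiteIndex'`; `A` is finite: `Module.finite_of_finite (ZMod p)`). -/
theorem finite_Z1_inf_B1 [Module.Finite (ZMod p) A]
    (ρ : Representation (ZMod p) GQ A) (U : Subgroup GQ) (hU : U ∈ LS S)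
    (hρU : ∀ u ∈ U, ρ u = 1) :
    Finite ↥(Z1 (LS S) ⊤ ρ ⊓ B1 (LS S) U ρ) := by
  have := (LS S).finiteIndex' U hU
  have hfinQ : Finite (GQ ⧸ U) := Subgroup.finite_quotient_of_finiteIndex
  have hfinA : Finite A := Module.finite_of_finite (ZMod p)
  have hkey : ∀ f : ↥(Z1 (LS S) ⊤ ρ ⊓ B1 (LS S) U ρ), ∀ g : GQ,
      (f : GQ → GQ → A) 1 (Quotient.out (g : GQ ⧸ U)) = (f : GQ → GQ → A) 1 g := by
    intro f g
    obtain ⟨u, hu⟩ := QuotientGroup.mk_out_eq_mul U g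
    have hfU : (f : GQ → GQ → A) ∈ Z1 (LS S) U ρ :=
      (inclC ρ (fun _ h => h : LS S ≤ LS S) (le_top : U ≤ ⊤)).memZ1 f.2.1
    obtain ⟨a, ha⟩ := (mem_B1_iff hfU).1 f.2.2
    have h0 : (f : GQ → GQ → A) 1 u = 0 := by
      rw [ha u u.2, hρU u u.2]
      simp
    rw [hu, inh1_cocycle f.2.1 g (Subgroup.mem_top g), h0, map_zero, zero_add]
  refine Finite.of_injective
    (fun (f : ↥(Z1 (LS S) ⊤ ρ ⊓ B1 (LS S) U ρ)) (q : GQ ⧸ U) => (f : GQ → GQ → A) 1 q.out) ?_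
  intro f f' h
  apply Subtype.ext
  rw [← ofInh1_toInh1 (mem_Z1.1 f.2.1).1, ← ofInh1_toInh1 (mem_Z1.1 f'.2.1).1]
  congr 1
  funext g
  rw [toInh1_apply, toInh1_apply, ← hkey f g, ← hkey f' g]
  exact congrFun h (g : GQ ⧸ U)

theorem Fin_ShaZ1_le (S : Finset Nat.Primes) (ρ : Representation (ZMod p) GQ A) (U : Subgroup GQ) :
    ShaZ1 S ⊤ ρ ≤ ShaZ1 S U ρ := by
  intro f hf
  simp only [ShaZ1, Submodule.mem_inf, Submodule.mem_iInf] at hf ⊢
  refine ⟨(inclC ρ (fun _ h => h : LS S ≤ LS S) (le_top : U ≤ ⊤)).memZ1 hf.1, fun 𝒜 h𝒜 => ?_⟩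
  exact (inclC ρ (fun _ h => h : Lall ≤ Lall)
    (inf_le_inf_right (Dec 𝒜) (le_top : U ≤ ⊤))).memB1 (hf.2 𝒜 h𝒜)

/-- restriction `ShaZ1 S ⊤ ρ → Sha1 S U ρ`. -/
def Fin_res (S : Finset Nat.Primes) (ρ : Representation (ZMod p) GQ A) (U : Subgroup GQ) :
    ShaZ1 S ⊤ ρ →ₗ[ZMod p] Sha1 S U ρ :=
  (Submodule.mkQ _).comp (Submodule.inclusion (Fin_ShaZ1_le S ρ U))

theorem Fin_res_eq_zero_iff (ρ : Representation (ZMod p) GQ A) (U : Subgroup GQ)
    (z : ShaZ1 S ⊤ ρ) : Fin_res S ρ U z = 0 ↔ (z : GQ → GQ → A) ∈ B1 (LS S) U ρ := by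
  have h : Fin_res S ρ U z =
      Submodule.Quotient.mk (Submodule.inclusion (Fin_ShaZ1_le S ρ U) z) := rfl
  rw [h, Submodule.Quotient.mk_eq_zero, Submodule.submoduleOf, Submodule.mem_comap,
    Submodule.subtype_apply, Submodule.coe_inclusion]

theorem Fin_finite_ker [Module.Finite (ZMod p) A]
    (ρ : Representation (ZMod p) GQ A) (U : Subgroup GQ) (hU : U ∈ LS S)
    (hρU : ∀ u ∈ U, ρ u = 1) : Finite (LinearMap.ker (Fin_res S ρ U)) := by
  have hfin2 := finite_Z1_inf_B1 ρ U hU hρU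
  have hmem : ∀ z : LinearMap.ker (Fin_res S ρ U),
      ((z : ShaZ1 S ⊤ ρ) : GQ → GQ → A) ∈ Z1 (LS S) ⊤ ρ ⊓ B1 (LS S) U ρ := fun z =>
    ⟨z.1.2.1, (Fin_res_eq_zero_iff ρ U z.1).1 (LinearMap.mem_ker.1 z.2)⟩
  refine Finite.of_injective (fun z : LinearMap.ker (Fin_res S ρ U) =>
      (⟨_, hmem z⟩ : ↥(Z1 (LS S) ⊤ ρ ⊓ B1 (LS S) U ρ))) ?_
  intro z z' h
  have h' : ((z : ShaZ1 S ⊤ ρ) : GQ → GQ → A) = ((z' : ShaZ1 S ⊤ ρ) : GQ → GQ → A) :=
    congrArg (fun w : ↥(Z1 (LS S) ⊤ ρ ⊓ B1 (LS S) U ρ) => (w : GQ → GQ → A)) h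
  exact Subtype.ext (Subtype.ext h')

/-- a module is finite if it has a linear map to a finite module with finite kernel. -/
theorem Fin_module_finite {M Y : Type*} [AddCommGroup M] [Module (ZMod p) M] [AddCommGroup Y]
    [Module (ZMod p) Y] [Finite Y] (Ψ : M →ₗ[ZMod p] Y) (hker : Finite (LinearMap.ker Ψ)) :
    Module.Finite (ZMod p) M := by
  have hquot : Finite (M ⧸ LinearMap.ker Ψ) := Fin_finite_quot Ψ _ le_rfl
  have hm1 : Module.Finite (ZMod p) (LinearMap.ker Ψ) := Module.Finite.of_finite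
  have hm2 : Module.Finite (ZMod p) (M ⧸ LinearMap.ker Ψ) := Module.Finite.of_finite
  exact Module.Finite.of_submodule_quotient (LinearMap.ker Ψ)

/-- (F4)  `r : Sha1 S ⊤ ρ → Sha1 S U ρ` induced by the inclusions `ShaZ1 S ⊤ ρ ≤ ShaZ1 S U ρ`,
`B1 (LS S) ⊤ ρ ≤ B1 (LS S) U ρ` (`Submodule.mapQ`); its kernel is the image of the finite set of (F2), its target is
finite by (F3);  `U` := a level contained in `G1 p` (`isOpen_LS_G1 hpS`) and in a level acting trivially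
(`exists_level_trivial hρ`), by `directed'`.  `Module.Finite.of_submodule_quotient`, `LinearMap.quotKerEquivRange`. -/
theorem finite_Sha1_top (hp2 : p ≠ 2) (hpS : pPrime p ∈ S) [Module.Finite (ZMod p) A]
    (ρ : Representation (ZMod p) GQ A) (hρ : IsSmoothRep (LS S) ρ) :
    Module.Finite (ZMod p) (Sha1 S ⊤ ρ) := by
  obtain ⟨U₁, hU₁, hfix⟩ := exists_level_trivial hρ
  obtain ⟨U₂, hU₂, hG1⟩ := isOpen_LS_G1 (p := p) hpS
  obtain ⟨U, hU, h1, h2⟩ := (LS S).directed' U₁ hU₁ U₂ hU₂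
  have hfin : Finite (Sha1 S U ρ) :=
    finite_Sha1_of_trivial hp2 hpS ρ U hU (h2.trans hG1) (fun u hu => hfix u (h1 hu))
  have hm3 : Module.Finite (ZMod p) (ShaZ1 S ⊤ ρ) :=
    Fin_module_finite (Fin_res S ρ U) (Fin_finite_ker ρ U hU (fun u hu => hfix u (h1 hu)))
  exact Module.Finite.quotient (ZMod p) _

/-- `Ш¹_S(ρ)` is finite. -/
theorem finite_Sh1 (hp2 : p ≠ 2) (hpS : pPrime p ∈ S) [Module.Finite (ZMod p) A]
    (ρ : Representation (ZMod p) GQ A) (hρ : IsSmoothRep (LS S) ρ) :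
    Module.Finite (ZMod p) (Sh1 S ρ) := by
  obtain ⟨e⟩ := exists_Sh1_equiv_Sha1 S ρ
  have := finite_Sha1_top hp2 hpS ρ hρ
  exact Module.Finite.equiv e.symm

end Fermat.Agent.S56.GW

end
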