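/-
S56 (Taylor-Wiles primes), block (G1): the contract `G2.G1Statement p` of `Fermat/Agent/S56/G2/Statement.lean`.
-/
import Fermat.Agent.S56.GW.G1.Main
import Fermat.Agent.S56.GW.G1.Fin
import Fermat.Agent.S56.G2.Statement

set_option autoImplicit false
set_option maxHeartbeats 400000
set_option linter.unusedSectionVars false

open ExtCitation Module

noncomputable section

namespace Fermat.Agent.S56.GW

open Fermat.Agent.PT

variable {p : ℕ} [Fact p.Prime] {S : Finset Nat.Primes}
variable {B : Type} [AddCommGroup B] [Module (ZMod p) B]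

/-- `σ^*(1)` is smooth if `σ` is finite and smooth (a level `U ≤ G1 p` acting trivially on `B`:
`exists_level_trivial`, `isOpen_LS_G1 hpS`, `directed'`; `Theta_twist_dual_apply`). -/
theorem isSmoothRep_dualTwist (hpS : pPrime p ∈ S) [Module.Finite (ZMod p) B]
    (σ : Representation (ZMod p) GQ B) (hσ : IsSmoothRep (LS S) σ) :
    IsSmoothRep (LS S) (σ.dual.twist (cycloChar p)) := by
  obtain ⟨U, hU, hfix⟩ := exists_level_trivial hσ
  obtain ⟨U', hU', hG1⟩ := isOpen_LS_G1 (p := p) hpS
  obtain ⟨W, hW, h1, h2⟩ := (LS S).directed' U hU U' hU'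
  intro f
  refine ⟨W, hW, fun w hw => LinearMap.ext fun b => ?_⟩
  have hχ : cycloChar p w = 1 := hG1 (h2 hw)
  have hσw : σ w⁻¹ = 1 := hfix _ (U.inv_mem (h1 hw))
  rw [Theta_twist_dual_apply, hχ, hσw]
  simp

/-- **(G1)**, in the shape of the contract of block (G2). -/
theorem g1Statement (hp2 : p ≠ 2) : G2.G1Statement p := by
  intro S hpS B _ _ _ σ hσ
  have hsm := isSmoothRep_dualTwist hpS σ hσ
  have hfin := finite_Sh1 hp2 hpS (σ.dual.twist (cycloChar p)) hsm
  obtain ⟨h1, h2⟩ := G1_dual hp2 hpS σ hσ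
  obtain ⟨e⟩ := exists_Sh1_equiv_Sha1 S (σ.dual.twist (cycloChar p))
  refine ⟨h1.2 hfin, Module.Finite.equiv e, ?_⟩
  have h3 := h2 hfin
  rw [e.finrank_eq, Finset.sum_coe_sort S
    (fun v => finrank (ZMod p) (invOf (Dl v) (σ.dual.twist (cycloChar p))))] at h3
  exact h3

end Fermat.Agent.S56.GW

end
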